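import Mathlib

/-!
# S55, layer G, block EXIST, leaf EX-POW (helper534): abstract index lemmas

Pure algebra, Mathlib only.

* `index_range_pow_congr534` : the index of the `n`-th powers is invariant under isomorphism;
* `index_pi534`              : index of a product subgroup in a (dependent) finite product;
* `index_range_pow_pi534`    : `[∏ Gᵢ : (∏ Gᵢ)ⁿ] = ∏ [Gᵢ : Gᵢⁿ]`;
* `index_range_pow_units_artinian534` : for a reduced Artinian ring `R`:
  `[Rˣ : (Rˣ)ⁿ] = ∏_𝔪 [(R/𝔪)ˣ : ((R/𝔪)ˣ)ⁿ]`.
-/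

set_option autoImplicit false

namespace Fermat.Agent.S55.G.Pow534

/-- The index of the `n`-th powers is invariant under isomorphism. -/
lemma index_range_pow_congr534 {M N : Type*} [CommGroup M] [CommGroup N] (e : M ≃* N) (n : ℕ) :
    (powMonoidHom n : M →* M).range.index = (powMonoidHom n : N →* N).range.index := by
  rw [← MulEquiv.map_range_powMonoidHom e n, Subgroup.index_map_equiv]

/-- Index of a product subgroup in a dependent finite product. -/
lemma index_pi534 {ι : Type*} [Fintype ι] {G : ι → Type*} [∀ i, Group (G i)]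
    (H : ∀ i, Subgroup (G i)) :
    (Subgroup.pi Set.univ H).index = ∏ i, (H i).index := by
  simp_rw [Subgroup.index, ← Nat.card_pi]
  refine Nat.card_congr
    ((Quotient.congrRight (fun x y ↦ ?_)).trans (Setoid.piQuotientEquiv _).symm)
  rw [QuotientGroup.leftRel_pi]

lemma range_pow_pi534 {ι : Type*} {G : ι → Type*} [∀ i, CommGroup (G i)] (n : ℕ) :
    (powMonoidHom n : (∀ i, G i) →* (∀ i, G i)).range =
      Subgroup.pi Set.univ (fun i => (powMonoidHom n : G i →* G i).range) := by
  ext x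
  rw [Subgroup.mem_pi]
  constructor
  · rintro ⟨y, rfl⟩ i -
    exact ⟨y i, rfl⟩
  · intro h
    choose y hy using fun i => h i (Set.mem_univ i)
    exact ⟨y, funext hy⟩

/-- `[∏ Gᵢ : (∏ Gᵢ)ⁿ] = ∏ [Gᵢ : Gᵢⁿ]`. -/
lemma index_range_pow_pi534 {ι : Type*} [Fintype ι] {G : ι → Type*} [∀ i, CommGroup (G i)]
    (n : ℕ) :
    (powMonoidHom n : (∀ i, G i) →* (∀ i, G i)).range.index =
      ∏ i, (powMonoidHom n : G i →* G i).range.index := by
  rw [range_pow_pi534, index_pi534]

/-- For a reduced Artinian ring `R`: `[Rˣ : (Rˣ)ⁿ] = ∏_𝔪 [(R/𝔪)ˣ : ((R/𝔪)ˣ)ⁿ]`. -/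
lemma index_range_pow_units_artinian534 (R : Type*) [CommRing R] [IsArtinianRing R] [IsReduced R]
    [Fintype (MaximalSpectrum R)] (n : ℕ) :
    (powMonoidHom n : Rˣ →* Rˣ).range.index =
      ∏ 𝔪 : MaximalSpectrum R,
        (powMonoidHom n : (R ⧸ 𝔪.asIdeal)ˣ →* (R ⧸ 𝔪.asIdeal)ˣ).range.index := by
  rw [index_range_pow_congr534
    ((Units.mapEquiv (IsArtinianRing.equivPi R).toMulEquiv).trans MulEquiv.piUnits) n,
    index_range_pow_pi534]

/-- Additive/multiplicative dictionary for the index of multiples. -/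
lemma index_range_nsmul_additive534 (M : Type*) [CommGroup M] (n : ℕ) :
    (nsmulAddMonoidHom n : Additive M →+ Additive M).range.index =
      (powMonoidHom n : M →* M).range.index := rfl

end Fermat.Agent.S55.G.Pow534
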