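import Fermat.Agent.S55.G.PL0H713
import Fermat.Agent.S55.H424.LocalFldPow
import Fermat.Agent.S55.L.Unr534.Core
import Fermat.Agent.S55.G.Pow534.Abs

/-!
# S55, layer G, block EXIST, leaf EX-POW (helper534): the local power index over `ℚ_q`

For a finite extension `E / ℚ_q` containing a primitive `p`-th root of unity (`p` prime):
`[Eˣ : (Eˣ)ᵖ] = p ^ 2` if `q ≠ p` and `p ^ (2 + [E : ℚ_p])` if `q = p`.
-/

set_option autoImplicit false
set_option linter.style.haveILetI false
set_option linter.unusedSectionVars false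

namespace Fermat.Agent.S55.G.Pow534

open IsLocalRing Fermat.Agent.S55.Local Fermat.Agent.S55.Local.H713

variable (q : ℕ) [Fact q.Prime] (E : Type) [Field E] [Algebra ℚ_[q] E]
  [FiniteDimensional ℚ_[q] E]

/-- The structure map `ℤ_q → 𝒪_E`. -/
noncomputable def toIntVS534 : ℤ_[q] →+* intVS ℤ_[q] ℚ_[q] E :=
  letI : Algebra ℤ_[q] E := (toL ℤ_[q] ℚ_[q] E).toAlgebra
  (intVSEquiv ℤ_[q] ℚ_[q] E).toRingHom.comp (algebraMap ℤ_[q] (integralClosure ℤ_[q] E))

/-- A natural number prime to `q` is a unit of the ring of integers of `E`. -/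
lemma isUnit_natCast_intVS534 (n : ℕ) (hn : ¬ q ∣ n) :
    IsUnit ((n : ℕ) : intVS ℤ_[q] ℚ_[q] E) := by
  have h1 : IsUnit ((n : ℕ) : ℤ_[q]) := by
    rw [PadicInt.isUnit_iff]
    apply le_antisymm (PadicInt.norm_le_one _)
    by_contra hlt
    rw [not_le] at hlt
    have h2 := (PadicInt.norm_int_lt_one_iff_dvd (p := q) (n : ℤ)).1 (by simpa using hlt)
    exact hn (by exact_mod_cast h2)
  have h3 := h1.map (toIntVS534 q E)
  rwa [map_natCast] at h3

lemma card_residueField_padicInt534 : Nat.card (ResidueField ℤ_[q]) = q := by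
  rw [Nat.card_congr (PadicInt.residueField (p := q)).toEquiv, Nat.card_zmod]

/-- `|𝒪_E / q 𝒪_E| = q ^ [E : ℚ_q]`. -/
lemma card_quot_intVS534 :
    Nat.card (intVS ℤ_[q] ℚ_[q] E ⧸ Ideal.span {((q : ℕ) : intVS ℤ_[q] ℚ_[q] E)}) =
      q ^ Module.finrank ℚ_[q] E := by
  letI : Algebra ℤ_[q] E := (toL ℤ_[q] ℚ_[q] E).toAlgebra
  haveI : IsScalarTower ℤ_[q] ℚ_[q] E := IsScalarTower.of_algebraMap_eq (fun _ => rfl)
  have h1 := Fermat.Agent.S55.L.Unr534.card_quot_map534 ℤ_[q] ℚ_[q] E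
  rw [card_residueField_padicInt534] at h1
  rw [← h1]
  have hmap : (maximalIdeal ℤ_[q]).map (algebraMap ℤ_[q] (integralClosure ℤ_[q] E)) =
      Ideal.span {((q : ℕ) : integralClosure ℤ_[q] E)} := by
    rw [PadicInt.maximalIdeal_eq_span_p, Ideal.map_span, Set.image_singleton, map_natCast]
  have hJ : Ideal.span {((q : ℕ) : intVS ℤ_[q] ℚ_[q] E)} =
      ((maximalIdeal ℤ_[q]).map (algebraMap ℤ_[q] (integralClosure ℤ_[q] E))).map
        ((intVSEquiv ℤ_[q] ℚ_[q] E : integralClosure ℤ_[q] E ≃+* intVS ℤ_[q] ℚ_[q] E) :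
          integralClosure ℤ_[q] E →+* intVS ℤ_[q] ℚ_[q] E) := by
    rw [hmap, Ideal.map_span, Set.image_singleton]
    congr 2
  exact (Nat.card_congr (Ideal.quotientEquiv _ _ (intVSEquiv ℤ_[q] ℚ_[q] E) hJ).toEquiv).symm

/-- **Local power index over `ℚ_q`** for a field containing the `p`-th roots of unity. -/
theorem index_range_pow_local534 (p : ℕ) [hp : Fact p.Prime] {ζ : E}
    (hζ : IsPrimitiveRoot ζ p) :
    (powMonoidHom p : Eˣ →* Eˣ).range.index =
      p ^ (2 + if q = p then Module.finrank ℚ_[q] E else 0) := by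
  haveI : Fermat.Agent.S55.L.IsLocalFld E := PL0H713.isLocalFld_of_finite_padic q E
  have hA := PL0H713.isLocalRingOfIntegers_intVS q E
  haveI : NeZero p := ⟨hp.out.ne_zero⟩
  have hroots : Nat.card (rootsOfUnity p E) = p := hζ.card_rootsOfUnity
  by_cases hqp : q = p
  · subst hqp
    rw [if_pos rfl, H424.isLocalFld_index_range_pow E _ hA q hp.out.ne_zero, hroots,
      card_quot_intVS534]
    ring
  · rw [if_neg hqp, add_zero]
    have hnd : ¬ q ∣ p := fun h =>
      hqp ((Nat.prime_dvd_prime_iff_eq (Fact.out : q.Prime) hp.out).1 h)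
    rw [H424.isLocalFld_index_range_pow_of_isUnit E _ hA p (isUnit_natCast_intVS534 q E p hnd),
      hroots]
    ring

end Fermat.Agent.S55.G.Pow534
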