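import Fermat.Agent.S55.G.Places177.Bij
import Fermat.Agent.S55.G.Pow534.Local

/-!
# S55, layer G, block EXIST, leaf EX-POW (helper534): the power index of `(ℚ_q ⊗ K)ˣ`

For a number field `K` containing a primitive `p`-th root of unity (`p` prime) and a prime `q`:
`[(ℚ_q ⊗ K)ˣ : p] = p ^ (2 · #{w | q} + [q = p] · [K : ℚ])`.
-/

set_option autoImplicit false
set_option linter.style.haveILetI false
set_option linter.unusedSectionVars false

open scoped TensorProduct NumberField
open scoped Fermat.Agent.S55.G.Places177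

namespace Fermat.Agent.S55.G.Pow534

open Fermat.Agent.S55.G.Places177

variable (q : ℕ) [Fact q.Prime] (K : Type) [Field K] [NumberField K]

/-- The power index of `(ℚ_q ⊗ K)ˣ`. -/
theorem index_range_pow_BQ534 (p : ℕ) [hp : Fact p.Prime] {ζ : K} (hζ : IsPrimitiveRoot ζ p) :
    (powMonoidHom p : (BQ q K)ˣ →* (BQ q K)ˣ).range.index =
      p ^ (2 * Nat.card (MaximalSpectrum (BQ q K)) +
        if q = p then Module.finrank ℚ K else 0) := by
  classical
  haveI := isArtinianRing_BQ q K
  haveI := isReduced_BQ q K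
  letI : Fintype (MaximalSpectrum (BQ q K)) := Fintype.ofFinite _
  rw [index_range_pow_units_artinian534 (BQ q K) p]
  have hloc : ∀ 𝔪 : MaximalSpectrum (BQ q K),
      (powMonoidHom p : (BQ q K ⧸ 𝔪.asIdeal)ˣ →* (BQ q K ⧸ 𝔪.asIdeal)ˣ).range.index =
        p ^ (2 + if q = p then Module.finrank ℚ_[q] (FQ q K 𝔪) else 0) := by
    intro 𝔪
    haveI := FQ.finiteDimensional 𝔪
    exact index_range_pow_local534 q (FQ q K 𝔪) p (hζ.map_of_injective (toFQ 𝔪).injective)
  rw [Finset.prod_congr rfl (fun 𝔪 _ => hloc 𝔪), Finset.prod_pow_eq_pow_sum]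
  congr 1
  rw [Finset.sum_add_distrib, Finset.sum_const, Finset.card_univ, smul_eq_mul,
    Nat.card_eq_fintype_card, mul_comm]
  congr 1
  split_ifs with h
  · exact sum_finrank_FQ
  · simp

end Fermat.Agent.S55.G.Pow534
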