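import Fermat.Agent.S55.G.Exist121.Core
import Fermat.Agent.S55.G.LocH897.ASRing
import Fermat.Agent.S55.G.Pow534.Semilocal

/-!
# S55, layer G, block EXIST, leaf EX-POW (helper534): `powIndex534 : Exist121.PowIndexSpec`

For a number field `K ∋ μ_p`, `p` odd, `p ∈ S`:
`[J_S(K) : p J_S(K)] = [E_S(K) : p E_S(K)]² = p ^ (2 · #{w | S} + [K : ℚ])`.

* `index_range_pow_AS534` : `[J_S(K) : p J_S(K)] = p ^ (2 · #{w | S} + [K : ℚ])`;
* `natCard_primeIn_eq534` : `#{w | S} = ∑_{q ∈ S} #MaxSpec (ℚ_q ⊗ K)`;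
* `two_mul_card_infinitePlace534` : `2 · #∞ = [K : ℚ]` for `K ∋ μ_p`, `p ≥ 3`;
* `powIndex534 : Exist121.PowIndexSpec`.
-/

set_option autoImplicit false
set_option linter.style.haveILetI false
set_option linter.unusedSectionVars false

open scoped TensorProduct NumberField
open IsDedekindDomain

namespace Fermat.Agent.S55.G.Pow534

open Fermat.Agent.S55.G Fermat.Agent.S55.G.Places177

variable (S : Finset Nat.Primes) (K : Type) [Field K] [NumberField K]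

/-- The semilocal algebra `ℚ_q ⊗ K` for a bundled prime `q`. -/
abbrev BQ534 (q : Nat.Primes) : Type := @BQ (q : ℕ) ⟨q.2⟩ K _ _

/-- `K ⊗ ℚ_S ≃ ∏_{q ∈ S} ℚ_q ⊗ K`. -/
noncomputable def asEquivPiBQ534 : AS S K ≃+* (∀ q : S, BQ534 K q.1) :=
  (LocH897.asEquivPi S K).toRingEquiv.trans
    (RingEquiv.piCongrRight
      (fun q : S => (Algebra.TensorProduct.comm ℚ K (Qq q.1)).toRingEquiv))

/-- `J_S(K) ≃ ∏_{q ∈ S} (ℚ_q ⊗ K)ˣ`. -/
noncomputable def unitsEquivPiBQ534 : (AS S K)ˣ ≃* (∀ q : S, (BQ534 K q.1)ˣ) :=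
  (Units.mapEquiv (asEquivPiBQ534 S K).toMulEquiv).trans MulEquiv.piUnits

/-! ## Counting the primes above `S` -/

lemma eq_of_natCast_mem534 (w : HeightOneSpectrum (𝓞 K)) {q q' : Nat.Primes}
    (hq : ((q : ℕ) : 𝓞 K) ∈ w.asIdeal) (hq' : ((q' : ℕ) : 𝓞 K) ∈ w.asIdeal) : q = q' := by
  by_contra hne
  have hcop : Nat.Coprime (q : ℕ) (q' : ℕ) :=
    (Nat.coprime_primes q.2 q'.2).2 (fun h => hne (Subtype.ext h))
  have hI : IsCoprime ((q : ℕ) : ℤ) ((q' : ℕ) : ℤ) := Nat.isCoprime_iff_coprime.2 hcop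
  obtain ⟨a, b, hab⟩ := hI
  have h1 : (1 : 𝓞 K) ∈ w.asIdeal := by
    have h2 : ((a * ((q : ℕ) : ℤ) + b * ((q' : ℕ) : ℤ) : ℤ) : 𝓞 K) ∈ w.asIdeal := by
      push_cast
      exact w.asIdeal.add_mem (w.asIdeal.mul_mem_left _ hq) (w.asIdeal.mul_mem_left _ hq')
    rw [hab] at h2
    simpa using h2
  exact w.isPrime.ne_top ((Ideal.eq_top_iff_one _).2 h1)

/-- The primes above `S` are the disjoint union over `q ∈ S` of the primes above `q`. -/
noncomputable def primeInEquivSigma534 :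
    PrimeIn S K ≃ Σ q : S, {w : HeightOneSpectrum (𝓞 K) // (((q : Nat.Primes) : ℕ) : 𝓞 K) ∈
      w.asIdeal} where
  toFun w := ⟨⟨w.2.choose, w.2.choose_spec.1⟩, ⟨w.1, w.2.choose_spec.2⟩⟩
  invFun x := ⟨x.2.1, x.1.1, x.1.2, x.2.2⟩
  left_inv w := rfl
  right_inv x := by
    obtain ⟨⟨q, hq⟩, ⟨w, hw⟩⟩ := x
    have hex : IsAbove S K w := ⟨q, hq, hw⟩
    have h1 : hex.choose = q := eq_of_natCast_mem534 K w hex.choose_spec.2 hw
    have h2 : (⟨hex.choose, hex.choose_spec.1⟩ : S) = ⟨q, hq⟩ := Subtype.ext h1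
    refine Sigma.ext h2 ?_
    simp only
    refine (Subtype.heq_iff_coe_eq ?_).2 rfl
    intro w'
    rw [h1]

instance finite_above534 (q : Nat.Primes) :
    Finite {w : HeightOneSpectrum (𝓞 K) // ((q : ℕ) : 𝓞 K) ∈ w.asIdeal} :=
  haveI := @isArtinianRing_BQ (q : ℕ) ⟨q.2⟩ K _ _
  Finite.of_equiv _ (@placeEquiv (q : ℕ) ⟨q.2⟩ K _ _)

/-- `#{w | S} = ∑_{q ∈ S} #MaxSpec (ℚ_q ⊗ K)`. -/
theorem natCard_primeIn_eq534 :
    Nat.card (PrimeIn S K) = ∑ q : S, Nat.card (MaximalSpectrum (BQ534 K q.1)) := by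
  rw [Nat.card_congr (primeInEquivSigma534 S K), Nat.card_sigma]
  refine Finset.sum_congr rfl fun q _ => ?_
  exact (Nat.card_congr (@placeEquiv ((q : Nat.Primes) : ℕ) ⟨q.1.2⟩ K _ _)).symm

/-! ## The power index of the `S`-idèles -/

/-- `[J_S(K) : p J_S(K)] = p ^ (2 · #{w | S} + [K : ℚ])`. -/
theorem index_range_pow_AS534 (p : ℕ) [hp : Fact p.Prime]
    (hpS : (⟨p, hp.out⟩ : Nat.Primes) ∈ S) {ζ : K} (hζ : IsPrimitiveRoot ζ p) :
    (powMonoidHom p : (AS S K)ˣ →* (AS S K)ˣ).range.index =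
      p ^ (2 * Nat.card (PrimeIn S K) + Module.finrank ℚ K) := by
  classical
  rw [index_range_pow_congr534 (unitsEquivPiBQ534 S K) p, index_range_pow_pi534]
  have hloc : ∀ q : S,
      (powMonoidHom p : (BQ534 K q.1)ˣ →* (BQ534 K q.1)ˣ).range.index =
        p ^ (2 * Nat.card (MaximalSpectrum (BQ534 K q.1)) +
          if ((q : Nat.Primes) : ℕ) = p then Module.finrank ℚ K else 0) := fun q =>
    @index_range_pow_BQ534 ((q : Nat.Primes) : ℕ) ⟨q.1.2⟩ K _ _ p hp ζ hζ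
  rw [Finset.prod_congr rfl (fun q _ => hloc q), Finset.prod_pow_eq_pow_sum]
  congr 1
  rw [Finset.sum_add_distrib, ← Finset.mul_sum, ← natCard_primeIn_eq534]
  congr 1
  rw [Finset.sum_eq_single_of_mem (⟨⟨p, hp.out⟩, hpS⟩ : S) (Finset.mem_univ _)]
  · simp
  · intro b _ hb
    rw [if_neg]
    intro h
    exact hb (Subtype.ext (Subtype.ext h))

/-! ## `K` is totally complex -/

/-- `2 · #∞ = [K : ℚ]` for a number field containing a primitive `n`-th root of unity, `n ≥ 3`. -/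
theorem two_mul_card_infinitePlace534 {n : ℕ} (hn : 2 < n) {ζ : K} (hζ : IsPrimitiveRoot ζ n) :
    2 * Fintype.card (NumberField.InfinitePlace K) = Module.finrank ℚ K := by
  have h0 := NumberField.InfinitePlace.IsPrimitiveRoot.nrRealPlaces_eq_zero_of_two_lt hn hζ
  rw [NumberField.InfinitePlace.card_eq_nrRealPlaces_add_nrComplexPlaces,
    ← NumberField.InfinitePlace.card_add_two_mul_card_eq_rank K, h0, zero_add, zero_add]

/-! ## EX-POW -/

/-- **EX-POW.**  `[J_S(K) : p J_S(K)] = [E_S(K) : p E_S(K)]²`. -/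
theorem powIndex534 : Exist121.PowIndexSpec := by
  intro p hp hp2 S K _ _ hpS hζ
  obtain ⟨ζ, hζ'⟩ := hζ
  have hp0 : p ≠ 0 := hp.out.ne_zero
  have h2p : 2 < p := lt_of_le_of_ne hp.out.two_le (Ne.symm hp2)
  rw [Exist121.relIndex_pKer_eq, SesH604.index_range_nsmul_sUnit_of_primitiveRoot S K p hp0 hζ',
    ← pow_mul]
  have hJ : (Exist121.pMul (Additive (AS S K)ˣ) p).index =
      (powMonoidHom p : (AS S K)ˣ →* (AS S K)ˣ).range.index := rfl
  rw [hJ, index_range_pow_AS534 S K p hpS hζ', ← two_mul_card_infinitePlace534 K h2p hζ']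
  congr 1
  ring

end Fermat.Agent.S55.G.Pow534
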